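import Mathlib
import Fermat.Prelude.Def_FormalHecke_Eigensystem

/-!
# Formal eigensystems from their values at the primes
-/

set_option autoImplicit false

noncomputable section

namespace Fermat.Agent.S46Eig

variable {R : Type*} [CommRing R]

/-- The local sequence `s 0 = 1`, `s 1 = c`, `s (k+2) = c s (k+1) - e s k`. -/
def locSeq (e c : R) : ℕ → R
  | 0 => 1
  | 1 => c
  | (k + 2) => c * locSeq e c (k + 1) - e * locSeq e c k

/-- The sequence with given values at the primes. -/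
def eigSeq (e c : ℕ → R) (n : ℕ) : R :=
  if n = 0 then 0 else n.factorization.prod fun p k => locSeq (e p) (c p) k

variable (e c : ℕ → R)

theorem eigSeq_zero : eigSeq e c 0 = 0 := by simp [eigSeq]

theorem eigSeq_one : eigSeq e c 1 = 1 := by simp [eigSeq]

theorem eigSeq_prime_pow {p : ℕ} (hp : p.Prime) (k : ℕ) :
    eigSeq e c (p ^ k) = locSeq (e p) (c p) k := by
  rw [eigSeq, if_neg (pow_ne_zero _ hp.ne_zero), hp.factorization_pow,
    Finsupp.prod_single_index]
  rfl

theorem eigSeq_prime {p : ℕ} (hp : p.Prime) : eigSeq e c p = c p := by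
  have h := eigSeq_prime_pow e c hp 1
  rwa [pow_one] at h

theorem eigSeq_mul {m n : ℕ} (h : m.Coprime n) :
    eigSeq e c (m * n) = eigSeq e c m * eigSeq e c n := by
  rcases Nat.eq_zero_or_pos m with rfl | hm
  · rw [zero_mul, eigSeq_zero, zero_mul]
  rcases Nat.eq_zero_or_pos n with rfl | hn
  · rw [mul_zero, eigSeq_zero, mul_zero]
  rw [eigSeq, eigSeq, eigSeq, if_neg (Nat.mul_pos hm hn).ne', if_neg hm.ne', if_neg hn.ne',
    Nat.factorization_mul_of_coprime h, Finsupp.prod_add_index_of_disjoint]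
  rw [Nat.support_factorization, Nat.support_factorization]
  exact h.disjoint_primeFactors

theorem isEigensystem_eigSeq : FormalHecke.IsEigensystem e (eigSeq e c) := by
  refine ⟨eigSeq_one e c, fun ℓ hℓ n => ?_⟩
  rcases Nat.eq_zero_or_pos n with rfl | hn
  · simp [eigSeq_zero]
  obtain ⟨k, m, hm, rfl⟩ := Nat.exists_eq_pow_mul_and_not_dvd hn.ne' ℓ hℓ.ne_one
  have hcop : ∀ j, (ℓ ^ j).Coprime m := fun j =>
    Nat.Coprime.pow_left j ((Nat.Prime.coprime_iff_not_dvd hℓ).mpr hm)
  rw [eigSeq_prime e c hℓ]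
  rcases k with _ | k
  · rw [pow_zero, one_mul, if_neg hm, mul_zero, add_zero]
    have h := eigSeq_mul e c (hcop 1)
    rw [pow_one] at h
    rw [h, eigSeq_prime e c hℓ]
  · have h1 : ℓ ∣ ℓ ^ (k + 1) * m := Dvd.dvd.mul_right (dvd_pow_self _ (Nat.succ_ne_zero k)) _
    have h2 : ℓ ^ (k + 1) * m / ℓ = ℓ ^ k * m := by
      rw [pow_succ, mul_comm (ℓ ^ k) ℓ, mul_assoc, Nat.mul_div_cancel_left _ hℓ.pos]
    have h3 : ℓ * (ℓ ^ (k + 1) * m) = ℓ ^ (k + 2) * m := by ring
    rw [if_pos h1, h2, h3, eigSeq_mul e c (hcop _), eigSeq_mul e c (hcop _),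
      eigSeq_mul e c (hcop _), eigSeq_prime_pow e c hℓ, eigSeq_prime_pow e c hℓ,
      eigSeq_prime_pow e c hℓ, locSeq]
    ring

/-- Comparison of a multiplicative sequence with an eigensystem modulo an ideal. -/
theorem sub_eigSeq_mem {A : Type*} [CommRing A] (𝔪 : Ideal A) (e c : ℕ → ℤ) (b : ℕ → A)
    (h0 : b 0 = 0) (h1 : b 1 = 1) (hmul : ∀ m n : ℕ, m.Coprime n → b (m * n) = b m * b n)
    (hprime : ∀ p : ℕ, p.Prime → b p - (c p : A) ∈ 𝔪)
    (hpow : ∀ p : ℕ, p.Prime → ∀ r : ℕ,
      b (p ^ (r + 2)) - (b p * b (p ^ (r + 1)) - (e p : A) * b (p ^ r)) ∈ 𝔪) (n : ℕ) :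
    b n - ((eigSeq e c n : ℤ) : A) ∈ 𝔪 := by
  have hpp : ∀ p : ℕ, p.Prime → ∀ r : ℕ, b (p ^ r) - ((locSeq (e p) (c p) r : ℤ) : A) ∈ 𝔪 := by
    intro p hp r
    induction r using Nat.strong_induction_on with
    | _ r ih =>
      rcases r with _ | _ | r
      · simp [locSeq, h1]
      · simpa [locSeq] using hprime p hp
      · have ih1 := ih (r + 1) (by omega)
        have ih0 := ih r (by omega)
        have hP := hprime p hp
        have hR := hpow p hp r
        rw [locSeq]
        push_cast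
        rw [← Ideal.Quotient.eq_zero_iff_mem] at *
        simp only [map_sub, map_mul, map_intCast, sub_eq_zero] at *
        rw [hR, hP, ih1, ih0]
  induction n using Nat.recOnPosPrimePosCoprime with
  | prime_pow p n hp hn =>
    rw [eigSeq_prime_pow e c hp]
    exact hpp p hp n
  | zero => rw [h0, eigSeq_zero]; simp
  | one => rw [h1, eigSeq_one]; simp
  | coprime m n hm hn hmn ihm ihn =>
    rw [hmul m n hmn, eigSeq_mul e c hmn]
    rw [← Ideal.Quotient.eq_zero_iff_mem] at *
    push_cast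
    simp only [map_sub, map_mul, map_intCast, sub_eq_zero] at *
    rw [ihm, ihn]

end Fermat.Agent.S46Eig
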