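import Mathlib
import Fermat.Prelude.Def_CuspForm_IntegralLattice
import Fermat.Agent.HeckeDualityB
import Fermat.Agent.IntStr.Main
import Fermat.Agent.JRED.CuspLattice

/-!
# Integral forms from residually rational forms

* `hasIntegralBasis`: `S₂(Γ₀(N))` is spanned by the forms with integral `q`-expansion.
* `exists_integral_of_cong`: a weight two form on `Γ₀(N)` with algebraic integer coefficients whose
  reduction modulo a maximal ideal above `ℓ` has its coefficients in the prime field is congruent
  to a form with coefficients in `ℤ`.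
-/

set_option autoImplicit false

noncomputable section

open CongruenceSubgroup ModularFormClass CuspForm
open Fermat.Agent.HeckeDuality

namespace Fermat.Agent.S46Lat

/-- The space of weight two forms on `Γ₀(N)` has an integral basis. -/
theorem hasIntegralBasis (N : ℕ) [NeZero N] : CuspForm.HasIntegralBasis N := by
  have h := IntStr.hasIntegralStructure N 2
  rw [CuspForm.HasIntegralBasis, eq_top_iff, ← h]
  refine Submodule.span_mono fun f hf => ?_
  intro n
  obtain ⟨m, hm⟩ := (mem_intLattice_iff f).mp hf n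
  exact Subring.mem_bot.mpr ⟨m, hm.symm⟩

/-- Linearly independent sequences over a field have a dual system of finite functionals. -/
theorem exists_dual_functionals {K ι : Type*} [Field K] [Fintype ι] [DecidableEq ι]
    (v : ι → ℕ → K) (hv : LinearIndependent K v) :
    ∃ c : ι → ℕ →₀ K, ∀ i j, ((c i).sum fun n x => x * v j n) = if i = j then 1 else 0 := by
  -- the columns span `ι → K`
  let col : ℕ → (ι → K) := fun n j => v j n
  have hspan : Submodule.span K (Set.range col) = ⊤ := by
    by_contra hne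
    obtain ⟨φ, hφ, hφ0⟩ := Submodule.exists_dual_map_eq_bot_of_lt_top
      (lt_top_iff_ne_top.mpr hne) inferInstance
    apply hφ
    have h0 : ∀ n, φ (col n) = 0 := by
      intro n
      have h1 : φ (col n) ∈ (Submodule.span K (Set.range col)).map φ :=
        Submodule.mem_map_of_mem (Submodule.subset_span ⟨n, rfl⟩)
      rw [hφ0] at h1
      simpa using h1
    have h2 : ∀ j, φ (Pi.single j 1) = 0 := by
      rw [Fintype.linearIndependent_iff] at hv
      refine hv (fun j => φ (Pi.single j 1)) ?_
      ext n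
      have h3 := h0 n
      rw [pi_eq_sum_univ (col n), map_sum] at h3
      simp only [Finset.sum_apply, Pi.smul_apply, smul_eq_mul, Pi.zero_apply]
      rw [← h3]
      refine Finset.sum_congr rfl fun j _ => ?_
      have h4 : (fun k => if j = k then (1 : K) else 0) = Pi.single j 1 := by
        ext k
        rw [Pi.single_apply]
        simp only [eq_comm]
      rw [h4, map_smul, smul_eq_mul, mul_comm]
    refine LinearMap.pi_ext' fun j => ?_
    refine LinearMap.ext_ring ?_
    simpa using h2 j
  have hmem : ∀ i, ∃ c : ℕ →₀ K, Finsupp.linearCombination K col c = Pi.single i 1 := by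
    intro i
    have h1 : (Pi.single i 1 : ι → K) ∈ Submodule.span K (Set.range col) := by
      rw [hspan]; trivial
    exact (Finsupp.mem_span_range_iff_exists_finsupp).mp h1 |>.imp fun c hc => by
      rw [Finsupp.linearCombination_apply]; exact hc
  choose c hc using hmem
  refine ⟨c, fun i j => ?_⟩
  have h1 := congrFun (hc i) j
  rw [Finsupp.linearCombination_apply, Finsupp.sum, Finset.sum_apply, Pi.single_apply] at h1
  rw [Finsupp.sum]
  refine Eq.trans (Finset.sum_congr rfl fun n _ => ?_) (h1.trans (if_congr eq_comm rfl rfl))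
  rw [Pi.smul_apply, smul_eq_mul]

/-- Integers in a proper ideal of the algebraic integers containing the prime `ℓ`. -/
theorem dvd_of_intCast_mem {R : Type*} [CommRing R] {ℓ : ℕ} (hℓ : ℓ.Prime) (𝔪 : Ideal R)
    (hm : 𝔪 ≠ ⊤) (hmℓ : (ℓ : R) ∈ 𝔪) {m : ℤ} (h : (m : R) ∈ 𝔪) : (ℓ : ℤ) ∣ m := by
  by_contra hnd
  have hcop : IsCoprime (ℓ : ℤ) m :=
    (Int.prime_iff_natAbs_prime.mpr (by simpa using hℓ)).coprime_iff_not_dvd.mpr hnd
  obtain ⟨u, v, huv⟩ := hcop
  apply hm
  rw [Ideal.eq_top_iff_one]
  have h1 : (1 : R) = (u : R) * (ℓ : R) + (v : R) * (m : R) := by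
    have := congrArg (fun t : ℤ => (t : R)) huv
    push_cast at this
    exact this.symm
  rw [h1]
  exact 𝔪.add_mem (𝔪.mul_mem_left _ hmℓ) (𝔪.mul_mem_left _ h)

/-- A form whose coefficients are algebraic integers with reductions in the prime field is
congruent to a form with coefficients in `ℤ`. -/
theorem exists_integral_of_cong {N : ℕ} [NeZero N] {ℓ : ℕ} (hℓ : ℓ.Prime)
    (g : CuspForm (Gamma0 N) 2) (𝔪 : Ideal (integralClosure ℤ ℂ)) (hm : 𝔪.IsMaximal)
    (hmℓ : (ℓ : integralClosure ℤ ℂ) ∈ 𝔪) (b : ℕ → integralClosure ℤ ℂ)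
    (hb : ∀ n, (b n : ℂ) = qCoeff g n) (c : ℕ → ℤ)
    (hc : ∀ n, b n - (c n : integralClosure ℤ ℂ) ∈ 𝔪) :
    ∃ F : CuspForm (Gamma0 N) 2, F ∈ qIntegralSet N ∧
      ∃ af : ℕ → ℤ, (∀ n, (af n : ℂ) = qCoeff F n) ∧ ∀ n, (ℓ : ℤ) ∣ af n - c n := by
  classical
  have : Fact ℓ.Prime := ⟨hℓ⟩
  have hint : CuspForm.HasIntegralStructure N 2 := IntStr.hasIntegralStructure N 2
  have := finite_intLattice (N := N)
  have := free_intLattice (N := N)
  let B := Module.Free.chooseBasis ℤ (CuspForm.intLattice N 2)
  -- the reductions of the basis are independent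
  have hv : LinearIndependent (ZMod ℓ) fun i n => ((intCoeff (B i) n : ℤ) : ZMod ℓ) := by
    have h1 := JRED.CuspLattice.linearIndependent_redF (k := ZMod ℓ) hℓ B
    rw [Fintype.linearIndependent_iff] at h1 ⊢
    intro x hx i
    refine h1 x ?_ i
    ext m
    rcases lt_or_ge m 0 with hneg | hpos
    · simp only [HahnSeries.coeff_sum, HahnSeries.coeff_smul, HahnSeries.coeff_zero]
      refine Finset.sum_eq_zero fun j _ => ?_
      rw [JRED.CuspLattice.redF, ModularCurve.coeffMap_coeff, JRED.CuspLattice.intL_coeff_neg _ hneg,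
        map_zero, smul_zero]
    · obtain ⟨n, rfl⟩ := Int.eq_ofNat_of_zero_le hpos
      have h2 := congrFun hx n
      simp only [Finset.sum_apply, Pi.smul_apply, Pi.zero_apply] at h2
      simp only [HahnSeries.coeff_sum, HahnSeries.coeff_smul, HahnSeries.coeff_zero,
        JRED.CuspLattice.redF_coeff]
      exact h2
  obtain ⟨d, hd⟩ := exists_dual_functionals _ hv
  choose D hD using fun i n => ZMod.intCast_surjective (n := ℓ) (d i n)
  let A : Matrix (Module.Free.ChooseBasisIndex ℤ (CuspForm.intLattice N 2))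
      (Module.Free.ChooseBasisIndex ℤ (CuspForm.intLattice N 2)) ℤ :=
    fun i j => ∑ n ∈ (d i).support, D i n * intCoeff (B j) n
  have hA : A.map (Int.castRingHom (ZMod ℓ)) = 1 := by
    ext i j
    rw [Matrix.map_apply, Matrix.one_apply, ← hd i j, Finsupp.sum, map_sum]
    refine Finset.sum_congr rfl fun n _ => ?_
    rw [map_mul, eq_intCast, eq_intCast, hD]
  have hdet : (ℓ : ℤ) ∣ A.det - 1 := by
    rw [← ZMod.intCast_zmod_eq_zero_iff_dvd]
    have h1 : (Int.castRingHom (ZMod ℓ)) A.det = 1 := by
      rw [RingHom.map_det, RingHom.mapMatrix_apply, hA, Matrix.det_one]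
    rw [eq_intCast] at h1
    rw [Int.cast_sub, h1, Int.cast_one, sub_self]
  -- coordinates of `g`
  obtain ⟨x, hx⟩ : ∃ x : Module.Free.ChooseBasisIndex ℤ (CuspForm.intLattice N 2) → ℂ,
      ∑ i, x i • ((B i : CuspForm.intLattice N 2) : CuspForm (Gamma0 N) 2) = g := by
    have hspan : Submodule.span ℂ (Set.range fun i => ((B i : CuspForm.intLattice N 2) :
        CuspForm (Gamma0 N) 2)) = ⊤ := by
      rw [eq_top_iff, ← hint, Submodule.span_le]
      intro f hf
      have h1 : (f : CuspForm (Gamma0 N) 2) =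
          ∑ i, (B.repr ⟨f, hf⟩ i) • (B i : CuspForm (Gamma0 N) 2) := by
        have h2 := congrArg Subtype.val (B.sum_repr ⟨f, hf⟩)
        rw [AddSubmonoidClass.coe_finsetSum] at h2
        exact h2.symm
      rw [h1]
      refine Submodule.sum_mem _ fun i _ => ?_
      rw [← Int.cast_smul_eq_zsmul ℂ]
      exact Submodule.smul_mem _ _ (Submodule.subset_span ⟨i, rfl⟩)
    have h1 : g ∈ Submodule.span ℂ (Set.range fun i => ((B i : CuspForm.intLattice N 2) :
        CuspForm (Gamma0 N) 2)) := by rw [hspan]; trivial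
    exact (Submodule.mem_span_range_iff_exists_fun ℂ).mp h1
  have hgn : ∀ n, qCoeff g n = ∑ j, x j * (intCoeff (B j) n : ℂ) := by
    intro n
    rw [← hx, qc_sum]
    refine Finset.sum_congr rfl fun j _ => ?_
    rw [qc_smul, coe_intCoeff]
  -- the functionals applied to `g`, through the adjugate matrix
  let y : Module.Free.ChooseBasisIndex ℤ (CuspForm.intLattice N 2) → integralClosure ℤ ℂ :=
    fun i => ∑ j, (A.adjugate i j : integralClosure ℤ ℂ) *
      ∑ n ∈ (d j).support, (D j n : integralClosure ℤ ℂ) * b n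
  let z : Module.Free.ChooseBasisIndex ℤ (CuspForm.intLattice N 2) → ℤ :=
    fun i => ∑ j, A.adjugate i j * ∑ n ∈ (d j).support, D j n * c n
  have hyz : ∀ i, y i - (z i : integralClosure ℤ ℂ) ∈ 𝔪 := by
    intro i
    have h1 : y i - (z i : integralClosure ℤ ℂ) =
        ∑ j, (A.adjugate i j : integralClosure ℤ ℂ) *
          ∑ n ∈ (d j).support, (D j n : integralClosure ℤ ℂ) * (b n - c n) := by
      simp only [y, z]
      push_cast
      rw [← Finset.sum_sub_distrib]
      refine Finset.sum_congr rfl fun j _ => ?_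
      rw [← mul_sub, ← Finset.sum_sub_distrib]
      congr 1
      refine Finset.sum_congr rfl fun n _ => ?_
      rw [mul_sub]
    rw [h1]
    exact Ideal.sum_mem _ fun j _ => 𝔪.mul_mem_left _ (Ideal.sum_mem _ fun n _ =>
      𝔪.mul_mem_left _ (hc n))
  have hAx : ∀ j, (∑ n ∈ (d j).support, (D j n : ℂ) * qCoeff g n) =
      (A.map (Int.castRingHom ℂ)).mulVec x j := by
    intro j
    have h1 : ∀ k, (A.map (Int.castRingHom ℂ)) j k =
        ∑ n ∈ (d j).support, (D j n : ℂ) * (intCoeff (B k) n : ℂ) := by
      intro k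
      rw [Matrix.map_apply, eq_intCast, show A j k =
        ∑ n ∈ (d j).support, D j n * intCoeff (B k) n from rfl]
      push_cast
      rfl
    rw [Matrix.mulVec, dotProduct]
    simp only [h1, hgn, Finset.mul_sum, Finset.sum_mul]
    rw [Finset.sum_comm]
    refine Finset.sum_congr rfl fun k _ => Finset.sum_congr rfl fun n _ => ?_
    ring
  have hy : ∀ i, ((y i : integralClosure ℤ ℂ) : ℂ) = (A.det : ℂ) * x i := by
    intro i
    have h1 : ((y i : integralClosure ℤ ℂ) : ℂ) =
        ((A.map (Int.castRingHom ℂ)).adjugate.mulVec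
          ((A.map (Int.castRingHom ℂ)).mulVec x)) i := by
      rw [Matrix.mulVec, dotProduct]
      simp only [y]
      push_cast
      refine Finset.sum_congr rfl fun j _ => ?_
      rw [← hAx j]
      have h2 : (A.map (Int.castRingHom ℂ)).adjugate i j = ((A.adjugate i j : ℤ) : ℂ) := by
        have := RingHom.map_adjugate (Int.castRingHom ℂ) A
        rw [RingHom.mapMatrix_apply, RingHom.mapMatrix_apply] at this
        rw [← this, Matrix.map_apply, eq_intCast]
      rw [h2]
      congr 1
      refine Finset.sum_congr rfl fun n _ => ?_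
      rw [hb n]
    rw [h1, Matrix.mulVec_mulVec, Matrix.adjugate_mul, Matrix.smul_mulVec, Matrix.one_mulVec,
      Pi.smul_apply, smul_eq_mul]
    congr 1
    have h3 := RingHom.map_det (Int.castRingHom ℂ) A
    rw [RingHom.mapMatrix_apply, eq_intCast] at h3
    exact h3.symm
  have hbn : ∀ n, (A.det : integralClosure ℤ ℂ) * b n =
      ∑ i, y i * (intCoeff (B i) n : integralClosure ℤ ℂ) := by
    intro n
    apply Subtype.ext
    have h1 : (((A.det : integralClosure ℤ ℂ) * b n : integralClosure ℤ ℂ) : ℂ) =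
        (A.det : ℂ) * qCoeff g n := by
      rw [← hb n, MulMemClass.coe_mul]
      rfl
    rw [h1, hgn n, Finset.mul_sum, AddSubmonoidClass.coe_finsetSum]
    refine Finset.sum_congr rfl fun i _ => ?_
    rw [MulMemClass.coe_mul, hy i, mul_assoc]
    congr 1
  -- the integral form
  refine ⟨((∑ i, z i • B i : CuspForm.intLattice N 2) : CuspForm (Gamma0 N) 2), ?_,
    intCoeff (∑ i, z i • B i), fun n => coe_intCoeff _ n, fun n => ?_⟩
  · intro n
    exact Subring.mem_bot.mpr ⟨_, coe_intCoeff _ n⟩
  · refine dvd_of_intCast_mem hℓ 𝔪 hm.ne_top hmℓ ?_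
    rw [JRED.CuspLattice.intCoeff_sum]
    obtain ⟨e, he⟩ := hdet
    have he' : (A.det : integralClosure ℤ ℂ) = 1 + (ℓ : integralClosure ℤ ℂ) * e := by
      have h1 : A.det = 1 + (ℓ : ℤ) * e := by linarith
      rw [h1]; push_cast; rfl
    have h1 : (((∑ i, z i * intCoeff (B i) n) - c n : ℤ) : integralClosure ℤ ℂ) =
        (b n - (c n : integralClosure ℤ ℂ)) + (ℓ : integralClosure ℤ ℂ) * (e * b n) -
          ∑ i, (y i - (z i : integralClosure ℤ ℂ)) *
            (intCoeff (B i) n : integralClosure ℤ ℂ) := by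
      have h2 := hbn n
      rw [he'] at h2
      simp only [sub_mul, Finset.sum_sub_distrib]
      rw [← h2]
      push_cast
      ring
    rw [h1]
    exact 𝔪.sub_mem (𝔪.add_mem (hc n) (𝔪.mul_mem_right _ hmℓ))
      (Ideal.sum_mem _ fun i _ => 𝔪.mul_mem_right _ (hyz i))

end Fermat.Agent.S46Lat
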